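/-
S44 / DEPTH (architect helper219), task DEPTH-AM1 (helper72): the easy cases of the abstract main
theorem: smooth points, and the tame case.
-/
import Fermat.Agent.S44.Depth.MainDefs
import Fermat.Agent.S44.Depth.Abs.LfSm
import Fermat.Agent.S44.Depth.BC.Eis
import Fermat.Agent.S44.Depth.BC.Descend
import Fermat.Agent.S44.Depth.Abs.Slope
import Fermat.Agent.S44.Depth.BC.Model

set_option autoImplicit false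

noncomputable section

namespace Fermat.Agent.S44.Depth

open Fermat.Agent.S18 Fermat.Agent.S36.BP

variable {K₀ K₁ K F₀ F₁ F : Type*} [Field K₀] [Field K₁] [Field K] [Field F₀] [Field F₁] [Field F]
  [Algebra K₀ K₁] [Algebra K₀ K] [Algebra K₀ F₀] [Algebra K₁ F₁] [Algebra K F] [Algebra F₀ F₁]
  [Algebra F₀ F]
  {A₀ : ValuationSubring K₀} {ϖ₀ : K₀} {Vi₀ V0₀ : ValuationSubring F₀} {x₀ y₀ : F₀}
  {Smi₀ Sm0₀ Nd₀ : Set (Subring F₀)}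

/-- AM-s: smooth points. -/
theorem depth_smooth [CharZero F₀] {A : ValuationSubring K} {ϖ : K} {e : ℕ} {a : ℕ → K₀}
    (M₀ : NodalModel A₀ ϖ₀ 1 Vi₀ V0₀ x₀ y₀ Smi₀ Sm0₀ Nd₀) (H : BCData A₀ ϖ₀ A ϖ e a F₀ F)
    {Vi : ValuationSubring F} (hi : Ext Vi₀ Vi) {p : ℕ} (hp : p ≠ 0) {u : F} (hu : u ≠ 0)
    (hd : HorDiv K p u) : ∀ R₀ ∈ Smi₀, RedSm K Vi₀ Vi R₀ p u := by
  intro R₀ hR₀
  obtain ⟨V0, h0⟩ := exists_ext (E := F) V0₀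
  have M := lift_nodalModel H M₀ hi h0
  have hS := lf_sm M.unifA M.unifi (M.smi _ ⟨R₀, hR₀, rfl⟩) hp hu hd
  exact smShape_descend H M₀.unifi hi (M₀.smi R₀ hR₀) hS

/-- AM-t: the tame case. -/
theorem depth_tame [CharZero F₀] {A : ValuationSubring K} {ϖ : K} {e : ℕ} {a : ℕ → K₀}
    (M₀ : NodalModel A₀ ϖ₀ 1 Vi₀ V0₀ x₀ y₀ Smi₀ Sm0₀ Nd₀) (H : BCData A₀ ϖ₀ A ϖ e a F₀ F)
    {Vi : ValuationSubring F} (hi : Ext Vi₀ Vi) {p : ℕ} (hp : p.Prime) (he : ¬ p ∣ e) {u : F}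
    (hu : u ≠ 0) (hd : HorDiv K p u) :
    ∃ b₀ : ℤ, ∀ R₀ ∈ Nd₀, ∃ b : ℤ, RedNode K Vi₀ Vi x₀ R₀ p u b ∧ (p : ℤ) ∣ b - b₀ := by
  obtain ⟨V0, h0⟩ := exists_ext (E := F) V0₀
  have M := lift_nodalModel H M₀ hi h0
  obtain ⟨b₀, hb₀⟩ := slope_tame M hp (by rwa [one_mul]) hu hd
  refine ⟨b₀, fun R₀ hR₀ => ?_⟩
  obtain ⟨b, hb, hdvd⟩ := hb₀ _ ⟨R₀, hR₀, rfl⟩
  exact ⟨b, nodeShape_descend H M₀ hi hR₀ hb, hdvd⟩

end Fermat.Agent.S44.Depth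

end
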