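/-
S44 / DEPTH (architect helper219), node AM2 (owner helper174): THE ABSTRACT MAIN THEOREM of the route
DEPTH.  Assembly of the blocks D (`Depth/Abs`) and BC (`Depth/BC`).

Plan.  (1) extend `V0₀` to `F`, restrict `Vi`, `V0` to `F₁` along `ι`; base change of the nodal model to
`K₁` and to `K`.  (2) `toric_normal` over `K₁`: `uy₀ = u₀ κ₁ g₁ ^ p ≡ 1` on both components.
(3) `tameCore_sm`, `tameCore_node` + `lf_node` over `K₁`: local `p`-th roots `g ≡ 1`.  (4) transfer by `ι`: `ι g ≡ 1` to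
depth `c + 1` since `v(π) ≥ c + 1`.  (5) rewrite the relation.  (6) `slope`.  (7) descent.
-/
import Fermat.Agent.S44.Depth.MainDefs
import Fermat.Agent.S44.Depth.Abs.Toric
import Fermat.Agent.S44.Depth.Abs.TameCore
import Fermat.Agent.S44.Depth.Abs.LfNode
import Fermat.Agent.S44.Depth.Abs.Slope
import Fermat.Agent.S44.Depth.BC.Eis
import Fermat.Agent.S44.Depth.BC.Model
import Fermat.Agent.S44.Depth.BC.Aut
import Fermat.Agent.S44.Depth.BC.Descend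
import Fermat.Agent.S36.BP.Rad
import Fermat.Agent.S18.Chart.Unif

set_option autoImplicit false

noncomputable section

namespace Fermat.Agent.S44.Depth

open Fermat.Agent.S18 Fermat.Agent.S36.BP

/-! ### auxiliary lemmas on one valuation ring -/

section Aux

variable {E : Type*} [Field E] {V : ValuationSubring E}

private theorem main_val_eq_one {x : E} (h0 : x ≠ 0) (h : x ∈ V) (h' : x⁻¹ ∈ V) :
    V.valuation x = 1 := by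
  have h1 : V.valuation x ≤ 1 := (V.valuation_le_one_iff x).mpr h
  have h2 : V.valuation x⁻¹ ≤ 1 := (V.valuation_le_one_iff _).mpr h'
  have h3 : V.valuation x ≠ 0 := (V.valuation.ne_zero_iff).mpr h0
  rw [map_inv₀, inv_le_one₀ (zero_lt_iff.mpr h3)] at h2
  exact le_antisymm h1 h2

private theorem main_val_lt_one_iff {x : E} (h0 : x ≠ 0) : V.valuation x < 1 ↔ x⁻¹ ∉ V := by
  have h3 : V.valuation x ≠ 0 := (V.valuation.ne_zero_iff).mpr h0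
  rw [← V.valuation_le_one_iff, map_inv₀, inv_le_one₀ (zero_lt_iff.mpr h3), not_le]

/-- `z ∈ 𝔪_V ⇒ z / ϖ ∈ V`. -/
private theorem main_div_mem {ϖ : E} (hU : IsUnif V ϖ) {z : E} (hz : V.valuation z < 1) :
    z / ϖ ∈ V := by
  rcases eq_or_ne z 0 with rfl | h0
  · rw [zero_div]
    exact V.zero_mem
  · exact hU.div_mem ((V.valuation_le_one_iff z).mp hz.le) ((main_val_lt_one_iff h0).mp hz)

/-- `g ≡ 1` to depth `n` ⇒ `g ^ k ≡ 1` to depth `n`. -/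
private theorem main_dp_pow {ϖ : E} {n : ℕ} (hϖ : ϖ ∈ V) (hϖ0 : ϖ ≠ 0) {g : E}
    (h : Dp V ϖ n (g - 1)) (k : ℕ) : Dp V ϖ n (g ^ k - 1) := by
  have h' : (g - 1) / ϖ ^ n ∈ V := h
  have h1 : g - 1 ∈ V := by
    have : g - 1 = (g - 1) / ϖ ^ n * ϖ ^ n := by
      rw [div_mul_cancel₀ _ (pow_ne_zero n hϖ0)]
    rw [this]
    exact V.mul_mem _ _ h' (V.pow_mem hϖ n)
  have hg : g ∈ V := by
    have : g = g - 1 + 1 := by ring
    rw [this]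
    exact V.add_mem _ _ h1 V.one_mem
  show (g ^ k - 1) / ϖ ^ n ∈ V
  rw [← geom_sum_mul, mul_div_assoc]
  exact V.mul_mem _ _ (V.toSubring.sum_mem fun i _ => V.pow_mem hg i) h'

end Aux

/-! ### pairs of fields -/

section Pair

variable {E₀ E : Type*} [Field E₀] [Field E] [Algebra E₀ E] {V₀ : ValuationSubring E₀} {ϖ₀ : E₀}
  {ϖ : E} {e : ℕ} {a : ℕ → E₀} {V : ValuationSubring E}

private theorem main_lt_iff (hV : Ext V₀ V) (z : E₀) :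
    V.valuation (algebraMap E₀ E z) < 1 ↔ V₀.valuation z < 1 := by
  by_cases hz : z = 0
  · simp [hz]
  · have hz' : algebraMap E₀ E z ≠ 0 := (map_ne_zero _).mpr hz
    rw [main_val_lt_one_iff hz', main_val_lt_one_iff hz, ← map_inv₀, hV]

private theorem main_esum_sub (ϖ : E) (e : ℕ) (c d : ℕ → E₀) :
    esum ϖ e c - esum ϖ e d = esum ϖ e (fun i => c i - d i) := by
  unfold esum
  rw [← Finset.sum_sub_distrib]
  refine Finset.sum_congr rfl fun i _ => ?_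
  rw [map_sub, sub_mul]

private theorem main_esum_const (ϖ : E) {e : ℕ} (he : 0 < e) (z : E₀) :
    esum ϖ e (fun i => if i = 0 then z else 0) = algebraMap E₀ E z := by
  unfold esum
  rw [Finset.sum_eq_single 0]
  · simp
  · intro i _ hi
    simp [hi]
  · intro h
    exact absurd (Finset.mem_range.2 he) h

/-- the residue field does not change, so `p`-th roots modulo the maximal ideal persist -/
private theorem main_root (hU : IsUnif V₀ ϖ₀) (hE : IsEis V₀ ϖ₀ ϖ e a) (hV : Ext V₀ V) {p : ℕ}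
    (hroot : ∀ c ∈ V₀, ∃ b ∈ V₀, V₀.valuation (c - b ^ p) < 1) :
    ∀ c ∈ V, ∃ b ∈ V, V.valuation (c - b ^ p) < 1 := by
  intro z hz
  obtain ⟨c, rfl⟩ := hE.span z
  have hc := (eis_mem_iff hU hE hV c).mp hz
  obtain ⟨b, hb, hlt⟩ := hroot (c 0) (hc 0 hE.e_pos)
  refine ⟨algebraMap E₀ E b, (hV b).mpr hb, ?_⟩
  have h1 : esum ϖ e c - algebraMap E₀ E b ^ p =
      esum ϖ e (fun i => c i - if i = 0 then b ^ p else 0) := by
    rw [← map_pow, ← main_esum_const ϖ hE.e_pos (b ^ p), main_esum_sub]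
  rw [h1, eis_lt_iff hU hE hV]
  refine ⟨fun i hi => ?_, by simpa using hlt⟩
  by_cases h0 : i = 0
  · subst h0
    simpa using V₀.sub_mem (hc 0 hi) (V₀.pow_mem hb p)
  · simpa [h0] using hc i hi

end Pair

/-! ### transfer along `ι` -/

section Transfer

variable {F₀ F₁ F : Type*} [Field F₀] [Field F₁] [Field F] [Algebra F₀ F₁] [Algebra F₀ F]

private theorem main_rUnit_map (ι : F₁ →+* F) {R₁ : Subring F₁} {R : Subring F}
    (hle : ∀ r ∈ R₁, ι r ∈ R) {y : F₁} (hy : RUnit R₁ y) : RUnit R (ι y) :=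
  ⟨(map_ne_zero ι).mpr hy.1, hle _ hy.2.1, by rw [← map_inv₀]; exact hle _ hy.2.2⟩

private theorem main_liftR_map (ι : F₁ →+* F)
    (hι₀ : ∀ z : F₀, ι (algebraMap F₀ F₁ z) = algebraMap F₀ F z) {π₁ : F₁} {ϖF : F}
    {R₀ : Subring F₀} (hπ : ι π₁ ∈ liftR ϖF R₀) : ∀ r ∈ liftR π₁ R₀, ι r ∈ liftR ϖF R₀ := by
  have h : liftR π₁ R₀ ≤ (liftR ϖF R₀).comap ι := by
    refine Subring.closure_le.mpr ?_
    rintro _ (⟨z, hz, rfl⟩ | rfl)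
    · show ι (algebraMap F₀ F₁ z) ∈ liftR ϖF R₀
      rw [hι₀]
      exact Subring.subset_closure (Or.inl ⟨z, hz, rfl⟩)
    · exact hπ
  exact fun r hr => h hr

private theorem main_dp_transfer (ι : F₁ →+* F) {V : ValuationSubring F} {π₁ : F₁} {ϖF : F} {n : ℕ}
    (hU : IsUnif (V.comap ι) π₁) (hBR : ι π₁ / ϖF ^ n ∈ V) {g : F₁}
    (hg : (V.comap ι).valuation (g - 1) < 1) : Dp V ϖF n (ι g - 1) := by
  have h1 : (g - 1) / π₁ ∈ V.comap ι := main_div_mem hU hg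
  have h2 : ι ((g - 1) / π₁) ∈ V := h1
  have hπ : ι π₁ ≠ 0 := (map_ne_zero ι).mpr hU.ne_zero
  have h3 : (ι g - 1) / ϖF ^ n = ι ((g - 1) / π₁) * (ι π₁ / ϖF ^ n) := by
    rw [map_div₀, map_sub, map_one, div_mul_div_cancel₀ hπ]
  show (ι g - 1) / ϖF ^ n ∈ V
  rw [h3]
  exact V.mul_mem _ _ h2 hBR

end Transfer

private theorem main_horDiv {K F : Type*} [Field K] [Field F] [Algebra K F] {p : ℕ} {u g : F} {κ : K}
    (hκ : κ ≠ 0) (hg : g ≠ 0) (hd : HorDiv K p u) :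
    HorDiv K p (u * algebraMap K F κ * g ^ p) := by
  intro W hW
  obtain ⟨t, ht, h⟩ := hd W hW
  refine ⟨t * g⁻¹, mul_ne_zero ht (inv_ne_zero hg), ?_⟩
  have h1 : u * algebraMap K F κ * g ^ p * (t * g⁻¹) ^ p = u * t ^ p * algebraMap K F κ := by
    rw [mul_pow, inv_pow]
    field_simp
  rw [h1, map_mul, h, one_mul]
  exact main_val_eq_one ((map_ne_zero _).mpr hκ) (hW κ) (by rw [← map_inv₀]; exact hW κ⁻¹)

private theorem main_rel_alg {F : Type*} [Field F] (u U Kc G C h : F) (k p : ℕ) (hK : Kc ≠ 0)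
    (hG : G ≠ 0) :
    u * U ^ k * C * h ^ p =
      u * (U * Kc * G ^ p) ^ k * (C * (Kc ^ k)⁻¹) * (h * (G ^ k)⁻¹) ^ p := by
  have h1 : (U * Kc * G ^ p) ^ k = U ^ k * Kc ^ k * (G ^ k) ^ p := by
    rw [mul_pow, mul_pow, ← pow_mul, ← pow_mul, mul_comm p k]
  have h2 := pow_ne_zero k hK
  have h3 := pow_ne_zero p (pow_ne_zero k hG)
  rw [h1, mul_pow, inv_pow]
  field_simp

variable {K₀ K₁ K F₀ F₁ F : Type*} [Field K₀] [Field K₁] [Field K] [Field F₀] [Field F₁] [Field F]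
  [Algebra K₀ K₁] [Algebra K₀ K] [Algebra K₀ F₀] [Algebra K₁ F₁] [Algebra K F] [Algebra F₀ F₁]
  [Algebra F₀ F]
  {A₀ : ValuationSubring K₀} {ϖ₀ : K₀} {Vi₀ V0₀ : ValuationSubring F₀} {x₀ y₀ : F₀}
  {Smi₀ Sm0₀ Nd₀ : Set (Subring F₀)}

/-- AM: **the abstract main theorem of the route DEPTH.**
`K₀ ⊆ K₁ ⊆ K` totally ramified, `u₀ ∈ F₁` a toric class (`σ` acts on it by `m ≢ 1`), `τ` a wild
automorphism of `F / F₀` of depth `c` with `c + 1 ≤ v(π)`, `τ u = u · u₀ ^ k · const · h ^ p`. -/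
theorem depth_main [CharZero F₀]
    {A₁ : ValuationSubring K₁} {π : K₁} {e₁ : ℕ} {a₁ : ℕ → K₀}
    {A : ValuationSubring K} {ϖ : K} {e : ℕ} {a : ℕ → K₀}
    (M₀ : NodalModel A₀ ϖ₀ 1 Vi₀ V0₀ x₀ y₀ Smi₀ Sm0₀ Nd₀)
    {p : ℕ} (hp : p.Prime) (hpA : A₀.valuation (p : K₀) < 1)
    (hroot : ∀ c ∈ A₀, ∃ b ∈ A₀, A₀.valuation (c - b ^ p) < 1)
    (H₁ : BCData A₀ ϖ₀ A₁ π e₁ a₁ F₀ F₁) (H : BCData A₀ ϖ₀ A ϖ e a F₀ F) (he : ¬ p ^ 2 ∣ e)
    -- the tower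
    (ι : F₁ →+* F) (ιK : K₁ →+* K)
    (hι₀ : ∀ z : F₀, ι (algebraMap F₀ F₁ z) = algebraMap F₀ F z)
    (hιK : ∀ c : K₁, ι (algebraMap K₁ F₁ c) = algebraMap K F (ιK c))
    -- the toric class
    (σ : F₁ ≃+* F₁) (hσ : ∀ z : F₀, σ (algebraMap F₀ F₁ z) = algebraMap F₀ F₁ z)
    (hσπ : ∃ π' : K₁, σ (algebraMap K₁ F₁ π) = algebraMap K₁ F₁ π')
    {u₀ h₀ : F₁} {cst₀ : K₁} {m : ℕ} (hu₀ : u₀ ≠ 0) (hd₀ : HorDiv K₁ p u₀)
    (hm : ¬ (p : ℤ) ∣ (m : ℤ) - 1) (hrel₀ : σ u₀ = u₀ ^ m * algebraMap K₁ F₁ cst₀ * h₀ ^ p)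
    -- the wild automorphism
    (τ : F ≃+* F) (hτ : ∀ z : F₀, τ (algebraMap F₀ F z) = algebraMap F₀ F z) {δ : K} {c : ℕ}
    (hc : 1 ≤ c) (hτϖ : τ (algebraMap K F ϖ) = algebraMap K F (ϖ * (1 + δ)))
    (hδ : A.valuation δ = A.valuation ϖ ^ c)
    (hBR : A.valuation (ιK π) ≤ A.valuation ϖ ^ (c + 1))
    -- the class
    {u h : F} {cst : K} {k : ℕ} (hu : u ≠ 0) (hd : HorDiv K p u)
    (hrel : τ u = u * ι u₀ ^ k * algebraMap K F cst * h ^ p)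
    {Vi : ValuationSubring F} (hi : Ext Vi₀ Vi) :
    ∃ b₀ : ℤ, ∀ R₀ ∈ Nd₀, ∃ b : ℤ, RedNode K Vi₀ Vi x₀ R₀ p u b ∧ (p : ℤ) ∣ b - b₀ := by
  -- (1) the valuations and the models
  obtain ⟨V0, h0⟩ := exists_ext (E := F) V0₀
  have hi₁ : Ext Vi₀ (Vi.comap ι) := fun z => by
    show ι (algebraMap F₀ F₁ z) ∈ Vi ↔ _
    rw [hι₀]
    exact hi z
  have h0₁ : Ext V0₀ (V0.comap ι) := fun z => by
    show ι (algebraMap F₀ F₁ z) ∈ V0 ↔ _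
    rw [hι₀]
    exact h0 z
  have M₁ := lift_nodalModel H₁ M₀ hi₁ h0₁
  have M := lift_nodalModel H M₀ hi h0
  -- (2) normalisation of the toric class
  obtain ⟨hσi, hσc⟩ := lift_aut_trivial H₁ M₀.unifi hi₁ M₀.consti σ hσ hσπ
  obtain ⟨hσ0, -⟩ := lift_aut_trivial H₁ M₀.unif0 h0₁ M₀.const0 σ hσ hσπ
  have hroot₁ := main_root H₁.unif₀ H₁.eisK H₁.extA hroot
  obtain ⟨κ₁, g₁, hκ₁, hg₁, hti, ht0⟩ := toric_normal M₁ hp hroot₁ σ hσc hσi hσ0 hu₀ hm hrel₀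
  have hdy : HorDiv K₁ p (u₀ * algebraMap K₁ F₁ κ₁ * g₁ ^ p) := main_horDiv hκ₁ hg₁ hd₀
  have huy0 : u₀ * algebraMap K₁ F₁ κ₁ * g₁ ^ p ≠ 0 :=
    mul_ne_zero (mul_ne_zero hu₀ ((map_ne_zero _).mpr hκ₁)) (pow_ne_zero p hg₁)
  have hpA₁ : A₁.valuation (p : K₁) < 1 := by
    have := (main_lt_iff H₁.extA (p : K₀)).mpr hpA
    rwa [map_natCast] at this
  have hpAK : A.valuation (p : K) < 1 := by
    have := (main_lt_iff H.extA (p : K₀)).mpr hpA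
    rwa [map_natCast] at this
  -- (4) the constant `ιK π`
  have hϖ0 : ϖ ≠ 0 := M.unifA.ne_zero
  have hϖF0 : algebraMap K F ϖ ≠ 0 := (map_ne_zero _).mpr hϖ0
  have hBR' : ιK π / ϖ ^ (c + 1) ∈ A := by
    rw [← A.valuation_le_one_iff, map_div₀, map_pow]
    exact div_le_one_of_le₀ hBR zero_le
  have hιπA : ιK π ∈ A := by
    have : ιK π = ιK π / ϖ ^ (c + 1) * ϖ ^ (c + 1) := by
      rw [div_mul_cancel₀ _ (pow_ne_zero _ hϖ0)]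
    rw [this]
    exact A.mul_mem _ _ hBR' (A.pow_mem M.unifA.mem _)
  have hBRi : ι (algebraMap K₁ F₁ π) / algebraMap K F ϖ ^ (c + 1) ∈ Vi := by
    rw [hιK, ← map_pow, ← map_div₀]
    exact M.consti _ hBR'
  have hBR0 : ι (algebraMap K₁ F₁ π) / algebraMap K F ϖ ^ (c + 1) ∈ V0 := by
    rw [hιK, ← map_pow, ← map_div₀]
    exact M.const0 _ hBR'
  have hmap : ∀ R₀ : Subring F₀, IsPt A (liftR (algebraMap K F ϖ) R₀) →
      ∀ r ∈ liftR (algebraMap K₁ F₁ π) R₀, ι r ∈ liftR (algebraMap K F ϖ) R₀ := by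
    intro R₀ hPt
    exact main_liftR_map ι hι₀ (by rw [hιK]; exact hPt.const_mem _ hιπA)
  -- (5) the relation
  have hικ : algebraMap K F (ιK κ₁) ≠ 0 := (map_ne_zero _).mpr ((map_ne_zero _).mpr hκ₁)
  have hιg : ι g₁ ≠ 0 := (map_ne_zero _).mpr hg₁
  have hrel' : τ u = u * ι (u₀ * algebraMap K₁ F₁ κ₁ * g₁ ^ p) ^ k *
      algebraMap K F (cst * ((ιK κ₁) ^ k)⁻¹) * (h * ((ι g₁) ^ k)⁻¹) ^ p := by
    rw [hrel, map_mul, map_mul, map_pow, hιK, map_mul, map_inv₀, map_pow]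
    exact main_rel_alg u (ι u₀) _ (ι g₁) _ h k p hικ hιg
  have hunit : ∀ (R₀ : Subring F₀), IsPt A (liftR (algebraMap K F ϖ) R₀) → ∀ g : F₁,
      RUnit (liftR (algebraMap K₁ F₁ π) R₀) (u₀ * algebraMap K₁ F₁ κ₁ * g₁ ^ p / g ^ p) →
      RUnit (liftR (algebraMap K F ϖ) R₀)
        (ι (u₀ * algebraMap K₁ F₁ κ₁ * g₁ ^ p) ^ k / (ι g ^ k) ^ p) := by
    intro R₀ hPt g hg
    have h1 := (main_rUnit_map ι (hmap R₀ hPt) hg).pow k
    have h2 : ι (u₀ * algebraMap K₁ F₁ κ₁ * g₁ ^ p / g ^ p) ^ k =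
        ι (u₀ * algebraMap K₁ F₁ κ₁ * g₁ ^ p) ^ k / (ι g ^ k) ^ p := by
      rw [map_div₀, map_pow ι g, div_pow, ← pow_mul, ← pow_mul, mul_comm p k]
    rwa [h2] at h1
  -- (3) the local roots
  have hSmi : ∀ R ∈ liftR (algebraMap K F ϖ) '' Smi₀, ∃ g : F,
      RUnit R (ι (u₀ * algebraMap K₁ F₁ κ₁ * g₁ ^ p) ^ k / g ^ p) ∧
        Dp Vi (algebraMap K F ϖ) (c + 1) (g - 1) := by
    rintro _ ⟨R₀, hR₀, rfl⟩
    obtain ⟨g, hgu, hg1⟩ := tameCore_sm M₁.unifA M₁.unifi (M₁.smi _ ⟨R₀, hR₀, rfl⟩) hp hpA₁ hti hdy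
    exact ⟨ι g ^ k, hunit R₀ (M.smi _ ⟨R₀, hR₀, rfl⟩).isPt g hgu,
      main_dp_pow M.unifi.mem hϖF0 (main_dp_transfer ι M₁.unifi hBRi hg1) k⟩
  have hSm0 : ∀ R ∈ liftR (algebraMap K F ϖ) '' Sm0₀, ∃ g : F,
      RUnit R (ι (u₀ * algebraMap K₁ F₁ κ₁ * g₁ ^ p) ^ k / g ^ p) ∧
        Dp V0 (algebraMap K F ϖ) (c + 1) (g - 1) := by
    rintro _ ⟨R₀, hR₀, rfl⟩
    obtain ⟨g, hgu, hg1⟩ := tameCore_sm M₁.unifA M₁.unif0 (M₁.sm0 _ ⟨R₀, hR₀, rfl⟩) hp hpA₁ ht0 hdy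
    exact ⟨ι g ^ k, hunit R₀ (M.sm0 _ ⟨R₀, hR₀, rfl⟩).isPt g hgu,
      main_dp_pow M.unif0.mem hϖF0 (main_dp_transfer ι M₁.unif0 hBR0 hg1) k⟩
  have hNd : ∀ R ∈ liftR (algebraMap K F ϖ) '' Nd₀, ∃ g : F,
      RUnit R (ι (u₀ * algebraMap K₁ F₁ κ₁ * g₁ ^ p) ^ k / g ^ p) ∧
        Dp Vi (algebraMap K F ϖ) (c + 1) (g - 1) ∧ Dp V0 (algebraMap K F ϖ) (c + 1) (g - 1) := by
    rintro _ ⟨R₀, hR₀, rfl⟩
    obtain ⟨g, hgu, hgi, hg0⟩ := tameCore_node M₁ ⟨R₀, hR₀, rfl⟩ hp hpA₁ hti ht0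
      (lf_node M₁ ⟨R₀, hR₀, rfl⟩ hp.ne_zero huy0 hdy)
    exact ⟨ι g ^ k, hunit R₀ (M.nd _ ⟨R₀, hR₀, rfl⟩).isPt g hgu,
      main_dp_pow M.unifi.mem hϖF0 (main_dp_transfer ι M₁.unifi hBRi hgi) k,
      main_dp_pow M.unif0.mem hϖF0 (main_dp_transfer ι M₁.unif0 hBR0 hg0) k⟩
  -- (6) the slopes
  have T := lift_ramAut H M₀ hi h0 τ hτ hc hτϖ hδ
  obtain ⟨b₀, hb₀⟩ := slope M hp hpAK (by rwa [one_mul]) T hu hd hrel' hSmi hSm0 hNd
  -- (7) descent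
  refine ⟨b₀, fun R₀ hR₀ => ?_⟩
  obtain ⟨b, hb, hdvd⟩ := hb₀ _ ⟨R₀, hR₀, rfl⟩
  exact ⟨b, nodeShape_descend H M₀ hi hR₀ hb, hdvd⟩

end Fermat.Agent.S44.Depth

end
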